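/-
S16, UPPER block, package U6 (backup, helper64): the weight-4 TRACE identity.

For `G₁ G₂ ∈ M₂(Γ₀(p))` the trace of `G₁ G₂` to level one is a level-one form of weight 4, hence a
multiple of `E₄`; in terms of `q`-expansions (`U = U_p`):

  `p · a_n(G₁ G₂) + a_{pn}(U G₁ · U G₂) = (p + 1) · a_0(G₁) a_0(G₂) · a_n(E₄)`.

Inputs: Mathlib's `ModularForm.trace`, helper22's coset list (`S28/H22/Cosets.lean`), helper20's
Atkin–Lehner relation in weight 2 (`S16/H20/AtkinLehner.lean`), helper78's level-one Sturm bound.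
-/
import Fermat.Agent.S16.H20.W2
import Fermat.Agent.S16.H78.LevelOneZ

set_option autoImplicit false

noncomputable section

open UpperHalfPlane ModularForm CongruenceSubgroup Matrix.SpecialLinearGroup EisensteinSeries
open scoped MatrixGroups ModularForm Manifold

namespace Fermat.Agent.S16.H64

open Fermat.Agent.S20 Fermat.Agent.S28.H22 Fermat.Agent.S22 Fermat.Agent.S16.H20

variable {p : ℕ}

local notation "𝒢(" p ")" => (Subgroup.map (mapGL ℝ) (Gamma0 p))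

/-- The trace of `G₁ G₂` to level one, as a function: `G₁ G₂ + p⁻¹ U_p (U_p G₁ · U_p G₂)`. -/
theorem coe_trace_mul [hpp : Fact p.Prime] (G₁ G₂ : ModularForm 𝒢(p) 2) :
    (⇑(ModularForm.trace 𝒮ℒ (G₁.mul G₂)) : ℍ → ℂ) =
      ⇑G₁ * ⇑G₂ + (p : ℂ)⁻¹ • heckeU (2 + 2) p (heckeU 2 p G₁ * heckeU 2 p G₂) := by
  have hp : p ≠ 0 := hpp.out.ne_zero
  rw [ModularForm.coe_trace]
  let _ : Fintype (𝒮ℒ ⧸ Subgroup.subgroupOf 𝒢(p) 𝒮ℒ) := Fintype.ofFinite _
  rw [sum_quotient_eq p]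
  simp only [quotientFunc_cosetOf, map_one, SlashAction.slash_one]
  congr 1
  rw [heckeU_def, Finset.smul_sum,
    ← Fin.sum_univ_eq_sum_range
      (fun j => (p : ℂ)⁻¹ • ((heckeU 2 p G₁ * heckeU 2 p G₂) ∣[(2 + 2 : ℤ)] heckeMatrix p j))]
  refine Finset.sum_congr rfl fun b _ => ?_
  rw [ModularForm.coe_mul, ← SL_slash_eq_mapGL, ModularForm.mul_slash_SL2, SL_slash_eq_mapGL,
    SL_slash_eq_mapGL, slash_sigma_eq G₁ b, slash_sigma_eq G₂ b, neg_mul_neg]
  funext τ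
  simp only [Pi.mul_apply, Pi.smul_apply, slash_heckeMatrix_apply _ hp, smul_eq_mul]
  ring

/-- `q`-expansions at period `1` are additive/multiplicative on nice functions. -/
theorem analyticAt_of_isNice {F : ℍ → ℂ} (hF : IsNice 1 F) : AnalyticAt ℂ (cuspFunction 1 F) 0 := by
  simpa using hF.analyticAt

/-- The `q`-expansion of the trace function. -/
theorem qExpansion_trace_coeff [hpp : Fact p.Prime] (G₁ G₂ : ModularForm 𝒢(p) 2) (n : ℕ) :
    (qExpansion 1 (⇑G₁ * ⇑G₂ + (p : ℂ)⁻¹ • heckeU (2 + 2) p (heckeU 2 p G₁ * heckeU 2 p G₂))).coeff n =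
      (qExpansion 1 G₁ * qExpansion 1 G₂).coeff n +
        (p : ℂ)⁻¹ * (qExpansion 1 (heckeU 2 p G₁) * qExpansion 1 (heckeU 2 p G₂)).coeff (n * p) := by
  have hp : p ≠ 0 := hpp.out.ne_zero
  have h1 : IsNice 1 (⇑G₁ : ℍ → ℂ) := isNice_coe 1 G₁
  have h2 : IsNice 1 (⇑G₂ : ℍ → ℂ) := isNice_coe 1 G₂
  have hU1 : IsNice 1 (heckeU 2 p G₁) := isNice_heckeU 1 G₁
  have hU2 : IsNice 1 (heckeU 2 p G₂) := isNice_heckeU 1 G₂
  have hUU : IsNice 1 (heckeU 2 p G₁ * heckeU 2 p G₂) := hU1.mul hU2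
  have hV : IsNice 1 (heckeU (2 + 2) p (heckeU 2 p G₁ * heckeU 2 p G₂)) :=
    isNice_heckeU_of_isNice 1 _ p hUU
  rw [qExpansion_add (analyticAt_of_isNice (h1.mul h2)) (analyticAt_of_isNice (hV.smul _)),
    qExpansion_smul (analyticAt_of_isNice hV),
    qExpansion_mul (analyticAt_of_isNice h1) (analyticAt_of_isNice h2), map_add,
    PowerSeries.coeff_smul, smul_eq_mul, qCoeff_heckeU_of_isNice _ hp hUU,
    qExpansion_mul (analyticAt_of_isNice hU1) (analyticAt_of_isNice hU2)]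

/-- A level-one form of weight 4 is its constant term times `E₄`, on `q`-expansions. -/
theorem coeff_of_isL1_four {F : ℍ → ℂ} (hF : H78.IsL1 4 F) (n : ℕ) :
    (qExpansion 1 F).coeff n = (qExpansion 1 F).coeff 0 * (qExpansion 1 E₄).coeff n := by
  set c : ℂ := (qExpansion 1 F).coeff 0 with hc
  have hE : H78.IsL1 4 (⇑E₄ : ℍ → ℂ) := H78.isL1_E4
  have hE0 : (qExpansion 1 E₄).coeff 0 = 1 := by
    rw [H78.qExpansion_E4, PowerSeries.coeff_map, PowerSeries.coeff_zero_eq_constantCoeff_apply,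
      H78.constantCoeff_E4Z]
    simp
  have hD : H78.IsL1 ((4 : ℕ) : ℤ) (F - c • (⇑E₄ : ℍ → ℂ)) :=
    H78.IsL1.cast (by norm_num) (hF.sub (hE.smul c))
  have hq : qExpansion 1 (F - c • (⇑E₄ : ℍ → ℂ)) = qExpansion 1 F - c • qExpansion 1 E₄ := by
    rw [hF.qExpansion_sub (hE.smul c), hE.qExpansion_smul]
  have h0 : F - c • (⇑E₄ : ℍ → ℂ) = 0 := by
    refine hD.eq_zero_of_coeff fun m hm => ?_
    have hm0 : m = 0 := by omega
    subst hm0
    rw [hq, map_sub, PowerSeries.coeff_smul, hE0, smul_eq_mul, mul_one, hc, sub_self]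
  have h1 : (qExpansion 1 (F - c • (⇑E₄ : ℍ → ℂ))).coeff n = 0 := by
    rw [h0, qExpansion_zero]; simp
  rw [hq, map_sub, PowerSeries.coeff_smul, smul_eq_mul, sub_eq_zero] at h1
  exact h1

/-- **TRACE4**: for `G₁ G₂ ∈ M₂(Γ₀(p))`,
`p · a_n(G₁ G₂) + a_{pn}(U G₁ · U G₂) = (p + 1) · a_0(G₁) a_0(G₂) · a_n(E₄)`. -/
theorem trace4 (p : ℕ) [hpp : Fact p.Prime] (G₁ G₂ : ModularForm (Γ0 p) 2) (n : ℕ) :
    (p : ℂ) * (qExpansion 1 G₁ * qExpansion 1 G₂).coeff n +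
        (qExpansion 1 (heckeU 2 p G₁) * qExpansion 1 (heckeU 2 p G₂)).coeff (p * n) =
      ((p : ℂ) + 1) * (qExpansion 1 G₁).coeff 0 * (qExpansion 1 G₂).coeff 0 *
        (qExpansion 1 E₄).coeff n := by
  have hp : p ≠ 0 := hpp.out.ne_zero
  have hpc : (p : ℂ) ≠ 0 := by exact_mod_cast hp
  have hL : H78.IsL1 4 (⇑G₁ * ⇑G₂ + (p : ℂ)⁻¹ • heckeU (2 + 2) p (heckeU 2 p G₁ * heckeU 2 p G₂)) := by
    rw [← coe_trace_mul G₁ G₂]
    exact H78.IsL1.cast (by norm_num) (H78.IsL1.of_form _)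
  have key := coeff_of_isL1_four hL n
  rw [qExpansion_trace_coeff G₁ G₂ n, qExpansion_trace_coeff G₁ G₂ 0] at key
  have e0 : (qExpansion 1 (heckeU 2 p G₁) * qExpansion 1 (heckeU 2 p G₂)).coeff (0 * p) =
      (qExpansion 1 G₁).coeff 0 * (qExpansion 1 G₂).coeff 0 := by
    rw [zero_mul, PowerSeries.coeff_zero_eq_constantCoeff_apply, map_mul,
      ← PowerSeries.coeff_zero_eq_constantCoeff_apply, ← PowerSeries.coeff_zero_eq_constantCoeff_apply,
      qExpansion_heckeU_coeff p hp G₁ 0, qExpansion_heckeU_coeff p hp G₂ 0, zero_mul]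
  have e1 : (qExpansion 1 G₁ * qExpansion 1 G₂).coeff 0 =
      (qExpansion 1 G₁).coeff 0 * (qExpansion 1 G₂).coeff 0 := by
    rw [PowerSeries.coeff_zero_eq_constantCoeff_apply, map_mul,
      ← PowerSeries.coeff_zero_eq_constantCoeff_apply, ← PowerSeries.coeff_zero_eq_constantCoeff_apply]
  rw [e0, e1, mul_comm n p] at key
  field_simp at key
  linear_combination key

end Fermat.Agent.S16.H64
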