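/-
S16, UPPER block, package U6 (backup, helper64): the trace relation (I).

If `f ∈ S₂(Γ₀(p))` (`p ≥ 5`) has integral `q`-expansion congruent to the Eisenstein series
`∑ σ'(n) qⁿ` modulo `m`, then `m ∣ (p² - 1)/24`.

Proof: apply `trace4` to `(g, f)` with `g = E - f ≡ (p-1)/24 (mod m)` and compare the coefficients
of `q`:  `((p² - 1)/24) · a₁(f) ∈ m ℤ`, and `a₁(f) ≡ 1 (mod m)`.
-/
import Fermat.Agent.S16.H64.Trace4
import Fermat.Agent.S16.H91.EisQ

set_option autoImplicit false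

noncomputable section

open UpperHalfPlane ModularForm CongruenceSubgroup Matrix.SpecialLinearGroup EisensteinSeries
open scoped MatrixGroups ModularForm Manifold

namespace Fermat.Agent.S16.H64

open Fermat.Agent.S20 Fermat.Agent.S16.H20

/-- `24 ∣ p² - 1` for a prime `p ≥ 5`. -/
theorem exists_sq_sub_one_eq (p : ℕ) (hpp : p.Prime) (hp : 5 ≤ p) :
    ∃ N : ℤ, (p : ℤ) ^ 2 - 1 = 24 * N := by
  have h2 : p % 2 = 1 := by
    rcases hpp.eq_two_or_odd with h | h
    · omega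
    · exact h
  have h3 : p % 3 ≠ 0 := by
    intro h
    have : 3 ∣ p := Nat.dvd_of_mod_eq_zero h
    rcases (Nat.dvd_prime hpp).mp this with h' | h' <;> omega
  have h24 : p ^ 2 % 24 = 1 := by
    have : p % 24 = 1 ∨ p % 24 = 5 ∨ p % 24 = 7 ∨ p % 24 = 11 ∨ p % 24 = 13 ∨ p % 24 = 17 ∨
        p % 24 = 19 ∨ p % 24 = 23 := by omega
    rw [Nat.pow_mod]
    rcases this with h | h | h | h | h | h | h | h <;> rw [h]
  refine ⟨((p ^ 2 / 24 : ℕ) : ℤ), ?_⟩
  have := Nat.div_add_mod (p ^ 2) 24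
  rw [h24] at this
  have h' : (p : ℤ) ^ 2 = 24 * ((p ^ 2 / 24 : ℕ) : ℤ) + 1 := by exact_mod_cast this.symm
  rw [h']
  ring

theorem sigmaP_one (p : ℕ) (hp : 2 ≤ p) : H91.sigmaP p 1 = 1 := by
  have h := H91.eisCoeff_one p hp
  rw [H91.eisCoeff_of_ne_zero p one_ne_zero] at h
  exact_mod_cast h

/-- **U6 (I), the trace relation**, with `σ'` in the shape of `H91.sigmaP`. -/
theorem dvd_of_congr' (p : ℕ) [hpp : Fact p.Prime] (hp : 5 ≤ p) (m : ℤ) (f : CuspForm (Γ0 p) 2)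
    (a : ℕ → ℤ) (ha : ∀ n, (qExpansion 1 f).coeff n = (a n : ℂ))
    (hcong : ∀ n : ℕ, 1 ≤ n → m ∣ a n - (H91.sigmaP p n : ℤ)) :
    m ∣ ((p : ℤ) ^ 2 - 1) / 24 := by
  have hp0 : p ≠ 0 := hpp.out.ne_zero
  have : NeZero p := ⟨hp0⟩
  have hΓ : (1 : ℝ) ∈ (Γ0 p).strictPeriods := CongruenceSubgroup.one_mem_strictPeriods_Gamma0 p
  -- the cusp form as a modular form, and `g = E - f`
  set fM : ModularForm (Γ0 p) 2 := CuspForm.toModularFormₗ f with hfM
  have hfMcoe : (⇑fM : ℍ → ℂ) = ⇑f := rfl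
  set g : ModularForm (Γ0 p) 2 := H91.eisP p - fM with hg
  have hgcoe : (⇑g : ℍ → ℂ) = ⇑(H91.eisP p) - ⇑fM := rfl
  -- coefficients
  have hφ : ∀ n, (qExpansion 1 fM).coeff n = (a n : ℂ) := fun n => by rw [hfMcoe]; exact ha n
  have ha0 : a 0 = 0 := by
    have h := CuspFormClass.qExpansion_coeff_zero f one_pos hΓ
    rw [ha 0] at h
    exact_mod_cast h
  choose z hz using fun n : ℕ => fun hn : 1 ≤ n => hcong n hn
  have hγ : qExpansion 1 g = qExpansion 1 (H91.eisP p) - qExpansion 1 fM := by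
    rw [hgcoe]
    exact ModularForm.qExpansion_sub one_pos hΓ (H91.eisP p) fM
  have hγ0 : (qExpansion 1 g).coeff 0 = ((p : ℂ) - 1) / 24 := by
    rw [hγ, map_sub, H91.qExpansion_eisP_coeff_zero, hφ, ha0]
    simp
  have hγn : ∀ n (hn : 1 ≤ n), (qExpansion 1 g).coeff n = -((m : ℂ) * (z n hn : ℂ)) := by
    intro n hn
    rw [hγ, map_sub, H91.qExpansion_eisP_coeff_of_ne_zero p (by omega), hφ]
    have h := hz n hn
    have h' : (a n : ℂ) = (H91.sigmaP p n : ℂ) + (m : ℂ) * (z n hn : ℂ) := by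
      have : a n = (H91.sigmaP p n : ℤ) + m * z n hn := by linarith
      exact_mod_cast this
    rw [h']
    ring
  have ha1 : a (1 * p * p) = a 1 := by
    have h := qExpansion_coeff_mul_mul p fM 1
    rw [hφ, hφ] at h
    exact_mod_cast h
  -- the trace identity at `n = 1`
  have R := trace4 p g fM 1
  rw [hφ 0, ha0] at R
  simp only [Int.cast_zero, mul_zero, zero_mul, mul_one] at R
  -- first product
  have e1 : (qExpansion 1 g * qExpansion 1 fM).coeff 1 = ((p : ℂ) - 1) / 24 * (a 1 : ℂ) := by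
    rw [PowerSeries.coeff_mul, Finset.Nat.sum_antidiagonal_eq_sum_range_succ_mk,
      Finset.sum_range_succ, Finset.sum_range_one]
    simp only [Nat.sub_zero, Nat.sub_self, hφ, ha0, hγ0]
    simp
  -- second product
  have e2 : (qExpansion 1 (heckeU 2 p g) * qExpansion 1 (heckeU 2 p fM)).coeff p =
      ((p : ℂ) - 1) / 24 * (a 1 : ℂ) -
        (m : ℂ) * ((∑ i ∈ Finset.range p,
          (if h : 1 ≤ (i + 1) * p then z ((i + 1) * p) h else 0) * a ((p - (i + 1)) * p) : ℤ) : ℂ) := by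
    rw [PowerSeries.coeff_mul, Finset.Nat.sum_antidiagonal_eq_sum_range_succ_mk,
      Finset.sum_range_succ']
    simp only [qExpansion_heckeU_coeff p hp0, hφ, Nat.sub_zero, zero_mul, hγ0]
    have hsum : ∑ x ∈ Finset.range p,
        (qExpansion 1 g).coeff ((x + 1) * p) * (a ((p - (x + 1)) * p) : ℂ) =
        -((m : ℂ) * ((∑ i ∈ Finset.range p,
          (if h : 1 ≤ (i + 1) * p then z ((i + 1) * p) h else 0) * a ((p - (i + 1)) * p) : ℤ) : ℂ)) := by
      push_cast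
      rw [Finset.mul_sum, ← Finset.sum_neg_distrib]
      refine Finset.sum_congr rfl fun i _ => ?_
      have hi : 1 ≤ (i + 1) * p := Nat.one_le_iff_ne_zero.mpr (Nat.mul_ne_zero (by omega) hp0)
      rw [hγn _ hi, dif_pos hi]
      ring
    rw [hsum, show p * p = 1 * p * p by ring, ha1]
    ring
  rw [e1, e2] at R
  set Z : ℤ := ∑ i ∈ Finset.range p,
    (if h : 1 ≤ (i + 1) * p then z ((i + 1) * p) h else 0) * a ((p - (i + 1)) * p) with hZ
  -- back to the integers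
  have RZ : ((p : ℤ) ^ 2 - 1) * a 1 = 24 * (m * Z) := by
    have : (((p : ℤ) ^ 2 - 1) * a 1 : ℂ) = ((24 * (m * Z) : ℤ) : ℂ) := by
      push_cast
      linear_combination 24 * R
    exact_mod_cast this
  obtain ⟨N, hN⟩ := exists_sq_sub_one_eq p hpp.out hp
  have hdiv : ((p : ℤ) ^ 2 - 1) / 24 = N := by
    rw [hN]; exact Int.mul_ediv_cancel_left N (by norm_num)
  rw [hdiv]
  rw [hN] at RZ
  have RZ' : N * a 1 = m * Z := by linarith
  have h1 : a 1 = 1 + m * z 1 le_rfl := by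
    have := hz 1 le_rfl
    rw [sigmaP_one p (by omega)] at this
    push_cast at this
    linarith
  refine ⟨Z - N * z 1 le_rfl, ?_⟩
  rw [h1] at RZ'
  linear_combination RZ'

/-- **U6 (I)** for any presentation `s` of `σ'` (`s n = ∑_{d ∣ n, p ∤ d} d`); the skeleton statement
`dvd_of_congr` is `dvd_of_congr_gen p hp m f a ha (sigmaP p) (fun _ => rfl) hcong`. -/
theorem dvd_of_congr_gen (p : ℕ) [Fact p.Prime] (hp : 5 ≤ p) (m : ℤ) (f : CuspForm (Γ0 p) 2)
    (a : ℕ → ℤ) (ha : ∀ n, (qExpansion 1 f).coeff n = (a n : ℂ)) (s : ℕ → ℕ)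
    (hs : ∀ n, s n = ∑ d ∈ n.divisors.filter (fun d => ¬ p ∣ d), d)
    (hcong : ∀ n : ℕ, 1 ≤ n → m ∣ a n - (s n : ℤ)) :
    m ∣ ((p : ℤ) ^ 2 - 1) / 24 := by
  refine dvd_of_congr' p hp m f a ha fun n hn => ?_
  have h : H91.sigmaP p n = s n := (hs n).symm
  rw [h]
  exact hcong n hn

end Fermat.Agent.S16.H64
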